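/-
S44lib / Lvl / Core  (helper9)  — Project LSq, block (T): descent of `mprime` from an elliptic-free level

ABSTRACT CORE.  `φb : Fk →ₐ[k] Fk'` an integral extension of function fields over `k` (the residue
function fields of the levels `N ∣ N'`).

* `restrictAlong φb hφb w`, `ramIdxAlong φb hφb w`, `ord_map_along :
    w.ord (φb f) = ramIdxAlong · (restrictAlong w).ord f`, `ramIdxAlong_pos`;
* `ordHom_map_along : Om.ordHom w (Om.map φb ω) = ramIdxAlong • Om.ordHom (restrictAlong w) ω`;
* **`descent_core`** : if the node orders of `Om.map φb ω` at the upper nodes `x'` are CONSTANT (`= t`),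
  the function `φb H` has the constant order `n` at the upper nodes, `m` prime, `m ∤ n`, and every lower
  node `x c` lies under an upper node, then the node orders of `ω` at the lower nodes are
  `s · ord_{x c} H` with `s = t / n`:  the class of `ω` is EISENSTEIN at the lower level.
* `descent_kapCl` : the same for `ω = kapCl G m x`, `Om.map φb ω = kapCl G' m (π^* x)`
  (helper6's `kapCl_pullbackAlong`).
-/
import Fermat.Agent.S44lib.Kap.PushPull

set_option autoImplicit false
set_option linter.unusedSectionVars false
set_option linter.style.haveILetI false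

noncomputable section

namespace Fermat.Agent.S44lib.Lvl

open AlgebraicCurve Fermat.Agent.LSb Fermat.Agent.S18lib Fermat.Agent.S44lib.Kap

section Along

variable {K Fk Fk' : Type*} [Field K] [Field Fk] [Field Fk'] [Algebra K Fk] [Algebra K Fk']
variable (φb : Fk →ₐ[K] Fk') (hφb : φb.toRingHom.IsIntegral)

/-- the restriction of a place along an integral homomorphism of function fields -/
def restrictAlong (w : Place K Fk') : Place K Fk :=
  letI := algebraAlong φb
  haveI := isScalarTower_along φb
  haveI := isIntegral_along φb hφb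
  w.restrict Fk

theorem mem_restrictAlong_iff (w : Place K Fk') (f : Fk) :
    f ∈ (restrictAlong φb hφb w).toValuationSubring ↔ φb f ∈ w.toValuationSubring := Iff.rfl

/-- the ramification index of a place along an integral homomorphism of function fields -/
def ramIdxAlong (w : Place K Fk') : ℕ :=
  letI := algebraAlong φb
  w.ramificationIndex Fk

include hφb in
theorem ramIdxAlong_pos (w : Place K Fk') : 0 < ramIdxAlong φb w := by
  letI := algebraAlong φb
  haveI := isScalarTower_along φb
  haveI := isIntegral_along φb hφb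
  exact w.ramificationIndex_pos (F := Fk)

theorem ord_map_along (w : Place K Fk') (f : Fk) :
    w.ord (φb f) = (ramIdxAlong φb w : ℤ) * (restrictAlong φb hφb w).ord f := by
  letI := algebraAlong φb
  haveI := isScalarTower_along φb
  haveI := isIntegral_along φb hφb
  exact w.ord_restrict (F := Fk) f

end Along

variable {L : Type*} [Field L] {A : ValuationSubring L}
variable {Fk : Type*} [Field Fk] [Algebra (IsLocalRing.ResidueField A) Fk]
variable {Fk' : Type*} [Field Fk'] [Algebra (IsLocalRing.ResidueField A) Fk']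

local notation "k" => IsLocalRing.ResidueField A

variable (φb : Fk →ₐ[IsLocalRing.ResidueField A] Fk') (hφb : φb.toRingHom.IsIntegral)

/-- the order of a pulled back class -/
theorem ordHom_map_along {m : ℕ} (w : Place k Fk') (ω : Om A Fk m) :
    Om.ordHom w (Om.map φb ω) =
      (ramIdxAlong φb w : ZMod m) * Om.ordHom (restrictAlong φb hφb w) ω := by
  obtain ⟨φ, hφ, rfl⟩ := Om.exists_rep ω
  rw [Om.map_mk, Om.ordHom_mk, Om.ordHom_mk, ord_map_along φb hφb]
  push_cast
  rfl

/-- **the descent of the Eisenstein property** -/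
theorem descent_core {m : ℕ} [Fact m.Prime] {H : Fk} {n : ℕ} (hn : ¬ m ∣ n)
    {ι ι' : Type*} (x : ι → Place k Fk) (x' : ι' → Place k Fk')
    (habove : ∀ c, ∃ c', restrictAlong φb hφb (x' c') = x c)
    (hH' : ∀ c', (x' c').ord (φb H) = n)
    (ω : Om A Fk m) (t : ZMod m) (hconst : ∀ c', Om.ordHom (x' c') (Om.map φb ω) = t) :
    ∀ c, Om.ordHom (x c) ω = (t * (n : ZMod m)⁻¹) * (((x c).ord H : ℤ) : ZMod m) := by
  intro c
  obtain ⟨c', hc'⟩ := habove c
  have hn0 : (n : ZMod m) ≠ 0 := by
    rw [Ne, ZMod.natCast_eq_zero_iff]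
    exact hn
  have h1 := hconst c'
  rw [ordHom_map_along φb hφb, hc'] at h1
  have h2 := hH' c'
  rw [ord_map_along φb hφb, hc'] at h2
  have h3 : (ramIdxAlong φb (x' c') : ZMod m) * (((x c).ord H : ℤ) : ZMod m) = (n : ZMod m) := by
    have := congrArg (fun a : ℤ => (a : ZMod m)) h2
    simpa using this
  -- `n · ord ω = e · ord H · ord ω = ord H · t`
  have h4 : (n : ZMod m) * Om.ordHom (x c) ω = t * (((x c).ord H : ℤ) : ZMod m) := by
    rw [← h3, ← h1]
    ring
  calc Om.ordHom (x c) ω = (n : ZMod m)⁻¹ * ((n : ZMod m) * Om.ordHom (x c) ω) := by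
        rw [← mul_assoc, inv_mul_cancel₀ hn0, one_mul]
    _ = (t * (n : ZMod m)⁻¹) * (((x c).ord H : ℤ) : ZMod m) := by
        rw [h4]
        ring

section KapCl

variable {F : Type*} [Field F] [Algebra L F] [HasPrincipalDivisors L F]
variable {F' : Type*} [Field F'] [Algebra L F'] [HasPrincipalDivisors L F']
variable (φ : F →ₐ[L] F') (hφ : φ.toRingHom.IsIntegral) (hFI : FundamentalIdentityAlong L φ hφ)

/-- **descent for the reduction Kummer classes**: if the node orders of the Kummer class of `π^* x`
are constant on the upper nodes, the Kummer class of `x` has node orders proportional to those of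
`H` on the lower nodes -/
theorem descent_kapCl {g g' : ℕ} (hF : IsCurveOfGenus L F g) (hF' : IsCurveOfGenus L F' g')
    {G : GaussDatum A F Fk} {G' : GaussDatum A F' Fk'} (hφG : GaussCompat G G' φ φb)
    {m : ℕ} [Fact m.Prime] {H : Fk} {n : ℕ} (hn : ¬ m ∣ n)
    {ι ι' : Type*} (x : ι → Place k Fk) (x' : ι' → Place k Fk')
    (habove : ∀ c, ∃ c', restrictAlong φb hφb (x' c') = x c)
    (hH' : ∀ c', (x' c').ord (φb H) = n)
    {y : Pic0 L F} (hy : (m : ℤ) • y = 0) (t : ZMod m)
    (hconst : ∀ c', kapOrd G' m (x' c') (Xfer.pic0PullbackAlong φ hφ hFI y) = t) :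
    ∀ c, kapOrd G m (x c) y = (t * (n : ZMod m)⁻¹) * (((x c).ord H : ℤ) : ZMod m) := by
  have hpull := kapCl_pullbackAlong φ hφ hFI hF hF' hφG hy
  intro c
  rw [← ordHom_kapCl]
  refine descent_core φb hφb hn x x' habove hH' (kapCl G m y) t (fun c' => ?_) c
  rw [← hpull, ordHom_kapCl]
  exact hconst c'

end KapCl

end Fermat.Agent.S44lib.Lvl
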