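/-
S44lib / Lvl / Compat  (helper9)  — Project LSq, block (T): the two levels `M q ∣ (M r) q`

The modular instances of the hypotheses of `Lvl/Core.descent_kapCl` for the level inclusions
`ι = V.inclL : FBar (M q) → FBar ((M r) q)`, `ῑ = V.inclK : FRes A M → FRes A (M r)`:

* `gaussCompat_gaussOne` : `GaussCompat (gaussOne M q) (gaussOne (M r) q) ι ῑ`;
* `gaussCompat_transport`, `gaussCompat_modD2` : the same for the second Gauss data `w_q^* gaussOne`
  (helper1's `LSc/Xfer/Level.wq_inclL`);
* `inclK_H₂` : `ῑ (H₂) = H₂`  (`H₂ = red₁ (Δ(t)/Δ(t^q))`, the same `t`-expansion at every level);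
* `isIntegral_inclK`, `exists_above` : every place of `FRes A M` lies under a place of `FRes A (M r)`;
* `mem_modNodes_of_restrict` : a place above a node is a node;
* `exists_modX₁_above`, `exists_modX₂_above` : every node `x_i c` of level `M q` lies under a node
  `x_i c'` of level `(M r) q`.
-/
import Fermat.Agent.S44lib.Lvl.Core
import Fermat.Agent.S44lib.Q4.RowSum
import Fermat.Agent.LSc.Xfer.Level
import Fermat.Agent.S37lib.B3.InstBase
import Fermat.Agent.LSb.Val.D1H

set_option autoImplicit false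
set_option linter.unusedSectionVars false
set_option linter.style.haveILetI false

noncomputable section

namespace Fermat.Agent.S44lib.Lvl

open AlgebraicCurve ModularCurve Fermat.Agent.LSb Fermat.Agent.S18lib Fermat.Agent.S44lib.Kap
open Fermat.Agent.LSb.Unit Fermat.Agent.LSb.Val

local notation "Qb" => AlgebraicClosure ℚ

/-! ### transport of a Gauss compatibility -/

section Transport

variable {L : Type*} [Field L] {A : ValuationSubring L}
variable {F : Type*} [Field F] [Algebra L F] {F' : Type*} [Field F'] [Algebra L F']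
variable {Fk : Type*} [Field Fk] [Algebra (IsLocalRing.ResidueField A) Fk]
variable {Fk' : Type*} [Field Fk'] [Algebra (IsLocalRing.ResidueField A) Fk']

theorem gaussCompat_transport {D : GaussDatum A F Fk} {D' : GaussDatum A F' Fk'} {φ : F →ₐ[L] F'}
    {φb : Fk →ₐ[IsLocalRing.ResidueField A] Fk'} (h : GaussCompat D D' φ φb) (e : F ≃ₐ[L] F)
    (e' : F' ≃ₐ[L] F') (he : ∀ y, e' (φ y) = φ (e y)) :
    GaussCompat (transport D e) (transport D' e') φ φb where
  mem y hy := by
    rw [mem_transport] at hy ⊢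
    rw [he]
    exact h.mem _ hy
  red y hy := by
    rw [mem_transport] at hy
    rw [transport_redF, transport_redF, he]
    exact h.red _ hy

end Transport

variable {M r q : ℕ} [NeZero M] [NeZero r] [NeZero q] [hq : Fact q.Prime]
variable {A : ValuationSubring Qb}

local notation "kA" => IsLocalRing.ResidueField A

/-- `M ∣ M r` -/
theorem dvdK (M r : ℕ) : M ∣ M * r := Dvd.intro r rfl

/-- `M q ∣ (M r) q` -/
theorem dvdL (M r q : ℕ) : M * q ∣ M * r * q := Nat.mul_dvd_mul_right (dvdK M r) q

variable (hqM : ¬ q ∣ M) (hqMr : ¬ q ∣ M * r) (hA : A.LiesOverPrime q)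

/-- **the first Gauss data of the two levels are compatible** -/
theorem gaussCompat_gaussOne :
    GaussCompat (gaussOne M q A hqM hA) (gaussOne (M * r) q A hqMr hA) (V.inclL (dvdL M r q))
      (V.inclK A (dvdK M r)) where
  mem y hy := by
    obtain ⟨a, b, hab⟩ := (mem_gaussOne_O M q A hqM hA).1 hy
    exact (mem_gaussOne_O (M * r) q A hqMr hA).2 ⟨_, _, hab.incl A (dvdL M r q)⟩
  red y hy := by
    obtain ⟨a, b, hab⟩ := (mem_gaussOne_O M q A hqM hA).1 hy
    have hab' := hab.incl A (dvdL M r q)
    have hy' : V.inclL (dvdL M r q) y ∈ (gaussOne (M * r) q A hqMr hA).O :=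
      (mem_gaussOne_O (M * r) q A hqMr hA).2 ⟨_, _, hab'⟩
    rw [GaussDatum.redF_of_mem _ hy', GaussDatum.redF_of_mem _ hy]
    apply Subtype.ext
    rw [V.coe_inclK]
    show ((gaussOneRed (M * r) q A hqMr hA ⟨_, hy'⟩ : FRes A (M * r)) : LaurentSeries kA) =
      ((gaussOneRed M q A hqM hA ⟨y, hy⟩ : FRes A M) : LaurentSeries kA)
    rw [gaussOneRed_apply (M * r) q A hqMr hA hy' hab', gaussOneRed_apply M q A hqM hA hy hab,
      V.elemK_inclI, V.elemK_inclI, ← map_div₀, V.coe_inclK]

/-- **the second Gauss data of the two levels are compatible** -/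
theorem gaussCompat_modD2 :
    GaussCompat (modD2 hqM (gaussOne M q A hqM hA)) (modD2 hqMr (gaussOne (M * r) q A hqMr hA))
      (V.inclL (dvdL M r q)) (V.inclK A (dvdK M r)) :=
  gaussCompat_transport (gaussCompat_gaussOne hqM hqMr hA) _ _
    (fun y => LSc.Xfer.wq_inclL (dvdK M r) hq.out hqMr hqM y)

/-- `H₂` does not depend on the level -/
theorem inclK_H₂ {D1 : GaussDatum A (FBar (M * q)) (FRes A M)}
    {D1' : GaussDatum A (FBar (M * r * q)) (FRes A (M * r))} (h1 : Old.IsGaussOne D1)
    (h1' : Old.IsGaussOne D1') : V.inclK A (dvdK M r) (H₂ D1) = H₂ D1' :=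
  Subtype.ext (by rw [V.coe_inclK, coe_H₂ h1, coe_H₂ h1'])

/-- `j̄` does not depend on the level -/
theorem inclK_jK' : V.inclK A (dvdK M r) (Gink.jK A M) = Gink.jK A (M * r) := V.inclK_jK A _

include hqMr hA in
/-- the inclusion of the residue function fields is integral -/
theorem isIntegral_inclK : (V.inclK A (dvdK M r)).toRingHom.IsIntegral := by
  letI := V.levelAlgebraK (N := M) (N' := M * r) A (dvdK M r)
  letI := V.levelModuleK (N := M) (N' := M * r) A (dvdK M r)
  haveI : FiniteDimensional (FRes A M) (FRes A (M * r)) :=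
    V.finiteDimensional_levelK A (dvdK M r) hqMr hA
  exact (Algebra.IsIntegral.of_finite (FRes A M) (FRes A (M * r))).isIntegral

include hqMr hA in
/-- every place of the lower residue curve lies under a place of the upper one -/
theorem exists_above {gk gk' : ℕ} (hFk : IsCurveOfGenus kA (FRes A M) gk)
    (hFk' : IsCurveOfGenus kA (FRes A (M * r)) gk') (x : Place kA (FRes A M)) :
    ∃ w : Place kA (FRes A (M * r)),
      restrictAlong (V.inclK A (dvdK M r)) (isIntegral_inclK hqMr hA) w = x := by
  letI := V.levelAlgebraK (N := M) (N' := M * r) A (dvdK M r)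
  letI := V.levelModuleK (N := M) (N' := M * r) A (dvdK M r)
  haveI : IsScalarTower kA (FRes A M) (FRes A (M * r)) := V.isScalarTower_levelK A (dvdK M r)
  haveI : FiniteDimensional (FRes A M) (FRes A (M * r)) :=
    V.finiteDimensional_levelK A (dvdK M r) hqMr hA
  haveI : HasPrincipalDivisors kA (FRes A (M * r)) := hFk'.hasPrincipalDivisors
  haveI : FundamentalIdentity kA (FRes A M) (FRes A (M * r)) :=
    S37lib.B3.fundamentalIdentity_levelK A (dvdK M r) hqMr hA hFk'
  haveI : Algebra.IsIntegral (FRes A M) (FRes A (M * r)) := Algebra.IsIntegral.of_finite _ _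
  exact S37lib.B3.exists_restrict_eq hFk.deg_eq_one hFk'.deg_eq_one x


/-! ### nodes -/

section Nodes

variable {D1 : GaussDatum A (FBar (M * q)) (FRes A M)}
  {D1' : GaussDatum A (FBar (M * r * q)) (FRes A (M * r))}
  (h1 : Old.IsGaussOne D1) (h1' : Old.IsGaussOne D1')

include hqMr hA h1 h1' in
/-- a place above a node is a node -/
theorem mem_modNodes_of_restrict {w : Place kA (FRes A (M * r))}
    (hw : restrictAlong (V.inclK A (dvdK M r)) (isIntegral_inclK hqMr hA) w ∈ modNodes D1) :
    w ∈ modNodes D1' := by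
  have hj := (mem_nodeSet.1 hw).1
  have hH := (mem_nodeSet.1 hw).2
  have h2 := (mem_restrictAlong_iff _ _ w _).1 hj
  rw [inclK_jK'] at h2
  refine mem_nodeSet.2 ⟨h2, ?_⟩
  rw [← inclK_H₂ h1 h1', LSb.adicValuation_lt_one_iff,
    ord_map_along (V.inclK A (dvdK M r)) (isIntegral_inclK hqMr hA)]
  rcases LSb.adicValuation_lt_one_iff.1 hH with h0 | hpos
  · exact absurd h0 (H₂_ne_zero h1)
  · right
    have he := ramIdxAlong_pos (V.inclK A (dvdK M r)) (isIntegral_inclK hqMr hA) w
    have he' : (0 : ℤ) < (ramIdxAlong (V.inclK A (dvdK M r)) w : ℤ) := by exact_mod_cast he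
    exact mul_pos he' hpos

variable [HasPrincipalDivisors (IsLocalRing.ResidueField A) (FRes A M)]
  [HasPrincipalDivisors (IsLocalRing.ResidueField A) (FRes A (M * r))]

include hqMr hA h1 h1' in
/-- every node `x₂ c` of the lower level lies under a node `x₂ c'` of the upper level -/
theorem exists_modX₂_above {gk gk' : ℕ} (hFk : IsCurveOfGenus kA (FRes A M) gk)
    (hFk' : IsCurveOfGenus kA (FRes A (M * r)) gk') (c : Fin (modS D1)) :
    ∃ c' : Fin (modS D1'), restrictAlong (V.inclK A (dvdK M r)) (isIntegral_inclK hqMr hA)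
      (modX₂ D1' c') = modX₂ D1 c := by
  obtain ⟨w, hw⟩ := exists_above hqMr hA hFk hFk' (modX₂ D1 c)
  have hmem : w ∈ modNodes D1' :=
    mem_modNodes_of_restrict hqMr hA h1 h1' (by rw [hw]; exact modX₂_mem c)
  obtain ⟨c', hc'⟩ := nodeEnum_surjective (Gink.jK A (M * r)) (H₂_ne_zero h1') hmem
  exact ⟨c', by rw [show modX₂ D1' c' = w from hc', hw]⟩

include hqMr hA h1 h1' in
/-- every node `x₁ c` of the lower level lies under a node `x₁ c'` of the upper level -/
theorem exists_modX₁_above {gk gk' : ℕ} (hFk : IsCurveOfGenus kA (FRes A M) gk)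
    (hFk' : IsCurveOfGenus kA (FRes A (M * r)) gk') (c : Fin (modS D1)) :
    ∃ c' : Fin (modS D1'), restrictAlong (V.inclK A (dvdK M r)) (isIntegral_inclK hqMr hA)
      (modX₁ hA D1' c') = modX₁ hA D1 c := by
  obtain ⟨w, hw⟩ := exists_above hqMr hA hFk hFk' (modX₁ hA D1 c)
  have hmem : w ∈ modNodes D1' :=
    mem_modNodes_of_restrict hqMr hA h1 h1' (by rw [hw]; exact S36lib.Count.modX₁_mem hA h1 c)
  obtain ⟨c', hc'⟩ := Q4.exists_modX₁_eq hA h1' hmem
  exact ⟨c', by rw [hc', hw]⟩

end Nodes

end Fermat.Agent.S44lib.Lvl
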