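/-
S44lib / Lvl / Descent  (helper9)  — Project LSq, block (T): THE DESCENT OF `mprime`

Levels `N = M q ∣ N' = (M r) q`, `q ≥ 5` the residue characteristic, `M r` elliptic-free
(`nuTwo (M r) = nuThree (M r) = 0`: e.g. `r ≡ 11 (12)` prime).  `π^* = pullUp : J₀(N) → J₀(N')` the
pull-back along the level inclusion (`G_ℚ`-equivariant: `pullUp_smul`).

**`eis_of_const`** : if the node orders of the reduction Kummer classes of `π^* y` (`y ∈ J₀(N)[q]`) at the
upper level are CONSTANT on each component (this is `(M′)` at the elliptic-free level `N'`, where all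
annuli have the same thickness), then the node orders of the reduction Kummer classes of `y` at the
lower level are proportional to the node orders of `H₂`:
  `kapOrd V₁ q (x₁ c) y = (t₁ / 12) · ord_{x₁ c} H₂`,   `kapOrd V₂ q (x₂ c) y = (t₂ / 12) · ord_{x₂ c} H₂`,
i.e. `res (Ψ y) ∈ Eis` (helper2's `eisSub`).
-/
import Fermat.Agent.S44lib.Lvl.Compat

set_option autoImplicit false
set_option linter.unusedSectionVars false
set_option linter.style.haveILetI false

noncomputable section

namespace Fermat.Agent.S44lib.Lvl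

open AlgebraicCurve ModularCurve Fermat.Agent.LSb Fermat.Agent.S18lib Fermat.Agent.S44lib.Kap
open Fermat.Agent.LSb.Unit Fermat.Agent.LSb.Val Fermat.Agent.S37lib.HeckeInst

local notation "Qb" => AlgebraicClosure ℚ
local notation "GQ" => (AlgebraicClosure ℚ ≃ₐ[ℚ] AlgebraicClosure ℚ)

variable (M r q : ℕ) [NeZero M] [NeZero r] [NeZero q]

/-- **the pull-back `J₀(M q) → J₀((M r) q)`** along the level inclusion -/
def pullUp : JZero (M * q) →+ JZero (M * r * q) :=
  haveI := hasPrincipalDivisors_FB (M * r * q)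
  Xfer.pic0PullbackAlong (V.inclL (dvdL M r q)) (LSc.Xfer.xferInputs_inclL (dvdL M r q)).int
    (LSc.Xfer.xferInputs_inclL (dvdL M r q)).fi

/-- the pull-back is `G_ℚ`-equivariant -/
theorem pullUp_smul (σ : GQ) (y : JZero (M * q)) : pullUp M r q (σ • y) = σ • pullUp M r q y := by
  haveI := hasPrincipalDivisors_FB (M * r * q)
  exact Xfer.pic0PullbackAlong_smul (V.inclL (dvdL M r q))
    (LSc.Xfer.xferInputs_inclL (dvdL M r q)).int (LSc.Xfer.xferInputs_inclL (dvdL M r q)).fi
    (LSc.Xfer.intertwines_inclL (dvdL M r q) σ) y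

variable {M r q} [hq : Fact q.Prime] {A : ValuationSubring Qb}

local notation "kA" => IsLocalRing.ResidueField A

theorem not_dvd_twelve (h5 : 5 ≤ q) : ¬ q ∣ 12 := by
  intro h
  have hle : q ≤ 12 := Nat.le_of_dvd (by norm_num) h
  have hp := hq.out
  interval_cases q <;> simp_all (config := { decide := true })

variable (hqM : ¬ q ∣ M) (hqMr : ¬ q ∣ M * r) (hA : A.LiesOverPrime q)

include hqM hqMr hA in
/-- **the descent of `(M′)`** from the elliptic-free level `(M r) q` to the level `M q` -/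
theorem eis_of_const (h5 : 5 ≤ q) (hν2 : nuTwo (M * r) = 0) (hν3 : nuThree (M * r) = 0)
    {g g' gk gk' : ℕ} (hF : IsCurveOfGenus Qb (FBar (M * q)) g)
    (hF' : IsCurveOfGenus Qb (FBar (M * r * q)) g')
    (hFk : IsCurveOfGenus kA (FRes A M) gk) (hFk' : IsCurveOfGenus kA (FRes A (M * r)) gk')
    {y : JZero (M * q)} (hy : (q : ℤ) • y = 0) (t₁ t₂ : ZMod q)
    (hc₁ : ∀ c', kapOrd (gaussOne (M * r) q A hqMr hA) q
      (modX₁ hA (gaussOne (M * r) q A hqMr hA) c') (pullUp M r q y) = t₁)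
    (hc₂ : ∀ c', kapOrd (modD2 hqMr (gaussOne (M * r) q A hqMr hA)) q
      (modX₂ (gaussOne (M * r) q A hqMr hA) c') (pullUp M r q y) = t₂) :
    (∀ c, kapOrd (gaussOne M q A hqM hA) q (modX₁ hA (gaussOne M q A hqM hA) c) y =
      (t₁ * ((12 : ℕ) : ZMod q)⁻¹) *
        (((modX₁ hA (gaussOne M q A hqM hA) c).ord (H₂ (gaussOne M q A hqM hA)) : ℤ) : ZMod q)) ∧
    (∀ c, kapOrd (modD2 hqM (gaussOne M q A hqM hA)) q (modX₂ (gaussOne M q A hqM hA) c) y =
      (t₂ * ((12 : ℕ) : ZMod q)⁻¹) *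
        (((modX₂ (gaussOne M q A hqM hA) c).ord (H₂ (gaussOne M q A hqM hA)) : ℤ) : ZMod q)) := by
  haveI := hasPrincipalDivisors_FB (M * r * q)
  haveI := hasPrincipalDivisors_FB (M * q)
  haveI : HasPrincipalDivisors kA (FRes A M) := hFk.hasPrincipalDivisors
  haveI : HasPrincipalDivisors kA (FRes A (M * r)) := hFk'.hasPrincipalDivisors
  have h1 := isGaussOne_gaussOne M q A hqM hA
  have h1' := isGaussOne_gaussOne (M * r) q A hqMr hA
  have hint := isIntegral_inclK (M := M) (r := r) hqMr hA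
  have h12 := not_dvd_twelve (q := q) h5
  constructor
  · refine descent_kapCl (V.inclK A (dvdK M r)) hint (V.inclL (dvdL M r q))
      (LSc.Xfer.xferInputs_inclL (dvdL M r q)).int (LSc.Xfer.xferInputs_inclL (dvdL M r q)).fi
      hF hF' (gaussCompat_gaussOne hqM hqMr hA) h12 _ _
      (fun c => exists_modX₁_above hqMr hA h1 h1' hFk hFk' c) (fun c' => ?_) hy t₁ hc₁
    rw [inclK_H₂ h1 h1']
    exact (S36lib.Count.ord_H₂_modX_five_le h5 hqMr hA hν2 hν3 h1' c').1
  · refine descent_kapCl (V.inclK A (dvdK M r)) hint (V.inclL (dvdL M r q))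
      (LSc.Xfer.xferInputs_inclL (dvdL M r q)).int (LSc.Xfer.xferInputs_inclL (dvdL M r q)).fi
      hF hF' (gaussCompat_modD2 hqM hqMr hA) h12 _ _
      (fun c => exists_modX₂_above hqMr hA h1 h1' hFk hFk' c) (fun c' => ?_) hy t₂ hc₂
    rw [inclK_H₂ h1 h1']
    exact (S36lib.Count.ord_H₂_modX_five_le h5 hqMr hA hν2 hν3 h1' c').2

end Fermat.Agent.S44lib.Lvl
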