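/-
S44lib / Lvl / MPrime  (helper9)  — Project LSq, block (T): `(M′)` FOR THE CONCRETE PACKAGE

`MPrimeConstStmt` : `(M′)` in CONSTANT form at the elliptic-free levels `M q` (`q ≥ 5`, `q ∤ M`,
`nuTwo M = nuThree M = 0`): for `x ∈ J₀(M q)[q]` satisfying the hypotheses of `(M′)`, the node orders
of the two reduction Kummer classes of `x` are constant on each component
(= helper7's `M/Inst` over helper4's annulus datum `H4.modAnn`).

**`mprimeStmt_of_const : MPrimeConstStmt → MPrimeStmt (modNModInst hqM hA h5) (eisSub (modNod hqM hA) q)`**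
at EVERY level `M q` (`q ≥ 5`, `q ∤ M`): pull `x` back to the level `(36 M) q` (no elliptic points),
apply the constant form there and descend by `Lvl.eis_of_const`.
-/
import Fermat.Agent.S44lib.Lvl.Descent
import Fermat.Agent.S44lib.Kap.Package
import Fermat.Agent.S44lib.Q4.PsiHecke
import Fermat.Agent.S36lib.Count.ModSq

set_option autoImplicit false
set_option linter.unusedSectionVars false
set_option linter.style.haveILetI false

noncomputable section

namespace Fermat.Agent.S44lib.Lvl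

open AlgebraicCurve ModularCurve Fermat.Agent.LSb Fermat.Agent.S18lib Fermat.Agent.S44lib.Kap
open Fermat.Agent.LSb.Unit Fermat.Agent.LSb.Val Fermat.Agent.S19lib Fermat.Agent.S44lib.Q4

local notation "Qb" => AlgebraicClosure ℚ
local notation "GQ" => (AlgebraicClosure ℚ ≃ₐ[ℚ] AlgebraicClosure ℚ)

/-- **`(M′)` in constant form at the elliptic-free levels** -/
def MPrimeConstStmt : Prop :=
  ∀ (M q : ℕ) [NeZero M] [NeZero q] [Fact q.Prime] (A : ValuationSubring Qb)
    (hqM : ¬ q ∣ M) (hA : A.LiesOverPrime q), 5 ≤ q → nuTwo M = 0 → nuThree M = 0 →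
    ∀ x ∈ tors (M * q) (q : ℤ), ∀ w : Qb, IsUnitRoot A q w → FixedOver A q w x →
      (∀ σ ∈ IOne A q, ∀ τ ∈ IOne A q, τ • (σ • x - x) = σ • x - x) →
      (∀ c c', kapOrd (gaussOne M q A hqM hA) q (modX₁ hA (gaussOne M q A hqM hA) c) x =
        kapOrd (gaussOne M q A hqM hA) q (modX₁ hA (gaussOne M q A hqM hA) c') x) ∧
      (∀ c c', kapOrd (modD2 hqM (gaussOne M q A hqM hA)) q
          (modX₂ (gaussOne M q A hqM hA) c) x =
        kapOrd (modD2 hqM (gaussOne M q A hqM hA)) q (modX₂ (gaussOne M q A hqM hA) c') x)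

theorem exists_const_of_forall_eq {α β : Type*} [Inhabited β] (f : α → β)
    (h : ∀ a b, f a = f b) : ∃ t, ∀ a, f a = t := by
  rcases isEmpty_or_nonempty α with he | ⟨⟨a₀⟩⟩
  · exact ⟨default, fun a => (he.false a).elim⟩
  · exact ⟨f a₀, fun a => h a a₀⟩

variable {M q : ℕ} [NeZero M] [NeZero q] [hq : Fact q.Prime] {A : ValuationSubring Qb}

theorem not_dvd_mul_thirtySix (h5 : 5 ≤ q) (hqM : ¬ q ∣ M) : ¬ q ∣ M * 36 := by
  intro hd
  rcases (Nat.Prime.dvd_mul hq.out).1 hd with h | h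
  · exact hqM h
  · have h36 : (36 : ℕ) = 2 ^ 2 * 3 ^ 2 := by norm_num
    rw [h36] at h
    rcases (Nat.Prime.dvd_mul hq.out).1 h with h | h
    · have := (Nat.prime_dvd_prime_iff_eq hq.out Nat.prime_two).1 (hq.out.dvd_of_dvd_pow h)
      omega
    · have := (Nat.prime_dvd_prime_iff_eq hq.out Nat.prime_three).1 (hq.out.dvd_of_dvd_pow h)
      omega

theorem mem_tors_pullUp (r : ℕ) [NeZero r] {x : JZero (M * q)} (hx : x ∈ tors (M * q) (q : ℤ)) :
    pullUp M r q x ∈ tors (M * r * q) (q : ℤ) := by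
  have h := smul_eq_zero_of_mem_tors hx
  show pullUp M r q x ∈ Submodule.torsionBy ℤ (JZero (M * r * q)) (q : ℤ)
  rw [Submodule.mem_torsionBy_iff, ← map_zsmul, h, map_zero]

/-- **`(M′)` at the level `M q` from the constant form at an elliptic-free level `(M r) q`** -/
theorem mprimeStmt_of_const_aux (H : MPrimeConstStmt) (r : ℕ) [NeZero r] (hqM : ¬ q ∣ M)
    (hqMr : ¬ q ∣ M * r) (hA : A.LiesOverPrime q) (h5 : 5 ≤ q) (hν2 : nuTwo (M * r) = 0)
    (hν3 : nuThree (M * r) = 0) :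
    MPrimeStmt (modNModInst hqM hA h5) (eisSub (modNod hqM hA) q) := by
  intro x hx w hw hfix hI
  have hy : pullUp M r q x ∈ tors (M * r * q) (q : ℤ) := mem_tors_pullUp r hx
  have hfix' : FixedOver A q w (pullUp M r q x) := fun σ hσ hσw => by
    rw [← pullUp_smul, hfix σ hσ hσw]
  have hI' : ∀ σ ∈ IOne A q, ∀ τ ∈ IOne A q,
      τ • (σ • pullUp M r q x - pullUp M r q x) = σ • pullUp M r q x - pullUp M r q x := by
    intro σ hσ τ hτ
    rw [← pullUp_smul, ← map_sub, ← pullUp_smul, hI σ hσ τ hτ]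
  obtain ⟨h1, h2⟩ := H (M * r) q A hqMr hA h5 hν2 hν3 _ hy w hw hfix' hI'
  obtain ⟨t₁, ht₁⟩ := exists_const_of_forall_eq _ h1
  obtain ⟨t₂, ht₂⟩ := exists_const_of_forall_eq _ h2
  obtain ⟨e₁, e₂⟩ := eis_of_const hqM hqMr hA h5 hν2 hν3 (modG_spec M q) (modG_spec (M * r) q)
    (modGk_spec hqM hA) (modGk_spec hqMr hA) (smul_eq_zero_of_mem_tors hx) t₁ t₂ ht₁ ht₂
  have hcast : ∀ a : ZMod q, (((a.val : ℕ) : ℤ) : ZMod q) = a := fun a => by
    rw [Int.cast_natCast, ZMod.natCast_zmod_val]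
  haveI := modHpdK hqM hA
  refine (mem_eisSub (D := modNod hqM hA) (m := q)).2
    ⟨⟨((t₁ * ((12 : ℕ) : ZMod q)⁻¹).val : ℕ), ?_⟩, ⟨((t₂ * ((12 : ℕ) : ZMod q)⁻¹).val : ℕ), ?_⟩⟩
  · funext c
    rw [Pi.smul_apply, zsmul_eq_mul, hcast]
    exact (e₁ c).symm
  · funext c
    rw [Pi.smul_apply, zsmul_eq_mul, hcast]
    exact (e₂ c).symm

/-- **`(M′)` for the concrete nodal package at every level `M q`** (`q ≥ 5`, `q ∤ M`), from the
constant form at the elliptic-free levels: the auxiliary level is `(36 M) q`. -/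
theorem mprimeStmt_of_const (H : MPrimeConstStmt) (hqM : ¬ q ∣ M) (hA : A.LiesOverPrime q)
    (h5 : 5 ≤ q) : MPrimeStmt (modNModInst hqM hA h5) (eisSub (modNod hqM hA) q) :=
  mprimeStmt_of_const_aux H 36 hqM (not_dvd_mul_thirtySix h5 hqM) hA h5
    (S36lib.Count.nuTwo_eq_zero_of_four_dvd ⟨M * 9, by ring⟩)
    (S36lib.Count.nuThree_eq_zero_of_nine_dvd ⟨M * 4, by ring⟩)

end Fermat.Agent.S44lib.Lvl
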