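/-
S44lib / Lvl / MPrimeFinal  (helper9)  — Project LSq: `(M′)` FOR THE CONCRETE PACKAGE, final assembly

* `KronLiftStmt`                 : helper1's `AnnInst/Coord.exists_kronLike` at all levels
                                   (helper4's `H4.KronLift`);
* `mprimeConstStmt_of_kronLift`  : `KronLiftStmt → MPrimeConstStmt`  (helper4's `H4.exists_unifCoord` +
                                   helper7's `M.mprime_mod` + `Ann.annOfNCtx_ann_smul`);
* **`mprimeStmt_modHeckeInputs`** : `KronLiftStmt → MPrimeStmt (modNModInst hqM hA h5) (modHeckeInputs hqM hA h5).Eis`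
                                   at every level `M q`, `q ≥ 5`, `q ∤ M`  (the input `hM` of
                                   `Kap.geomQStmt_of_modInputs`, with helper2's Hecke inputs).
-/
import Fermat.Agent.S44lib.Lvl.MPrime
import Fermat.Agent.S44lib.M.ModInst
import Fermat.Agent.S44lib.H4.ModCoordZ
import Fermat.Agent.S44lib.Ann.AnnSmul
import Fermat.Agent.S44lib.Q4.Inst

set_option autoImplicit false
set_option linter.unusedSectionVars false
set_option linter.style.haveILetI false

noncomputable section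

namespace Fermat.Agent.S44lib.Lvl

open AlgebraicCurve ModularCurve Fermat.Agent.LSb Fermat.Agent.S18lib Fermat.Agent.S44lib.Kap
open Fermat.Agent.LSb.Unit Fermat.Agent.LSb.Val Fermat.Agent.S19lib Fermat.Agent.S44lib.Q4
open Fermat.Agent.S29lib.GH

local notation "Qb" => AlgebraicClosure ℚ
local notation "GQ" => (AlgebraicClosure ℚ ≃ₐ[ℚ] AlgebraicClosure ℚ)

/-- **the lifting statement at all levels** (helper1's `exists_kronLike`) -/
def KronLiftStmt : Prop :=
  ∀ (M q : ℕ) [NeZero M] [NeZero q] [Fact q.Prime] (A : ValuationSubring Qb) (hqM : ¬ q ∣ M)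
    (hA : A.LiesOverPrime q), H4.KronLift hA (modD1 hqM hA) (modD2' hqM hA)

/-- **`(M′)` in constant form at the elliptic-free levels**, from the lifting statement -/
theorem mprimeConstStmt_of_kronLift (hK : KronLiftStmt) : MPrimeConstStmt := by
  intro M₀ q _ _ _ A hqM hA h5 hν2 hν3 x hx w hw hfix h2
  letI := modHpdK hqM hA
  haveI := modInfinite (A := A)
  obtain ⟨z, hz, -, hzfix⟩ := H4.exists_unifCoord hqM hA h5 hν2 hν3 (hK M₀ q A hqM hA)
  have hann : ∀ σ ∈ IA A, ∀ P : Place Qb (FBar (M₀ * q)),
      (S44lib.M.modAnn hqM hA h5 hz).ann (galAutBar (M₀ * q) σ • P) =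
        (S44lib.M.modAnn hqM hA h5 hz).ann P :=
    fun σ hσ P => Ann.annOfNCtx_ann_smul (modCtx hqM hA h5) hz S44lib.M.exists_sqrt_Qb
      (modInertial hqM hA h5 σ hσ) P
  exact ⟨fun c c' => (S44lib.M.mprime_mod hqM hA h5 hz hzfix hann hx w hw hfix h2 c c').1,
    fun c c' => (S44lib.M.mprime_mod hqM hA h5 hz hzfix hann hx w hw hfix h2 c c').2⟩

variable {M q : ℕ} [NeZero M] [NeZero q] [hq : Fact q.Prime] {A : ValuationSubring Qb}

/-- **`(M′)` for the concrete nodal package with helper2's Hecke inputs**, at every level `M q` -/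
theorem mprimeStmt_modHeckeInputs (hK : KronLiftStmt) (hqM : ¬ q ∣ M) (hA : A.LiesOverPrime q)
    (h5 : 5 ≤ q) : MPrimeStmt (modNModInst hqM hA h5) (modHeckeInputs hqM hA h5).Eis :=
  mprimeStmt_of_const (mprimeConstStmt_of_kronLift hK) hqM hA h5

end Fermat.Agent.S44lib.Lvl
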