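/-
S44lib / Lvl / MPrimeClosed  (helper9)  — Project LSq: `(M′)` FOR THE CONCRETE PACKAGE, UNCONDITIONAL

* `kronLiftStmt_holds : KronLiftStmt`     (helper1's `AnnInst.exists_kronLike`);
* `mprimeConstStmt_holds : MPrimeConstStmt`;
* **`mprimeStmt_mod hqM hA h5 : MPrimeStmt (modNModInst hqM hA h5) (modHeckeInputs hqM hA h5).Eis`**
  — the input `hM` of `Kap.geomQStmt_of_modInputs`, at every level `M q`, `q ≥ 5`, `q ∤ M`.
-/
import Fermat.Agent.S44lib.Lvl.MPrimeFinal
import Fermat.Agent.S44lib.AnnInst.Coord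

set_option autoImplicit false
set_option linter.unusedSectionVars false
set_option linter.style.haveILetI false

noncomputable section

namespace Fermat.Agent.S44lib.Lvl

open AlgebraicCurve ModularCurve Fermat.Agent.LSb Fermat.Agent.S18lib Fermat.Agent.S44lib.Kap
open Fermat.Agent.S19lib Fermat.Agent.S44lib.Q4

local notation "Qb" => AlgebraicClosure ℚ

/-- the lifting statement holds at all levels -/
theorem kronLiftStmt_holds : KronLiftStmt :=
  fun _ _ _ _ _ _ hqM hA u hu =>
    AnnInst.exists_kronLike hqM hA (modD1_isGaussOne hqM hA) (modD2'_isGaussTwo hqM hA) u hu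

/-- `(M′)` in constant form at the elliptic-free levels -/
theorem mprimeConstStmt_holds : MPrimeConstStmt := mprimeConstStmt_of_kronLift kronLiftStmt_holds

variable {M q : ℕ} [NeZero M] [NeZero q] [hq : Fact q.Prime] {A : ValuationSubring Qb}

/-- **`(M′)` for the concrete nodal package with helper2's Hecke inputs**, at every level `M q`,
`q ≥ 5`, `q ∤ M` -/
theorem mprimeStmt_mod (hqM : ¬ q ∣ M) (hA : A.LiesOverPrime q) (h5 : 5 ≤ q) :
    MPrimeStmt (modNModInst hqM hA h5) (modHeckeInputs hqM hA h5).Eis :=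
  mprimeStmt_modHeckeInputs kronLiftStmt_holds hqM hA h5

end Fermat.Agent.S44lib.Lvl
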